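import Fermat.Agent.S48.Res.PartsOcc
import Fermat.Agent.S48.H948.CohAsm

/-!
# S48 / RES (Tower A1): input (E) `Res.Eigenclass1Statement` (helper451)

`eigenclass1 : Res.Eigenclass1Statement`, UNCONDITIONAL: a pure adapter from the landed
cohomology side `H948.cohStatement` (PACKET + P2-EIS + CHI0 + M4a1).

Choices: `B := 2`, `M := M₀ * ℓ`, `a p`, `e p` := the eigenvalues provided by
`H948.IsCohEigenclass.hecke` / `.diamond` at `s := H548.sigmaP M p`.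
-/

set_option autoImplicit false

noncomputable section

open CongruenceSubgroup ModularCurve.Period
open scoped MatrixGroups

namespace Fermat.Agent.S48.H451

open Fermat.Agent.S48.Top Fermat.Agent.S48.Res Fermat.Agent.S48.H548 Fermat.Agent.S48.H948

/-- A prime not dividing `N * ℓ` does not divide `M₀ * ℓ` when the primes of `M₀` divide `N`. -/
theorem not_dvd_mul_of_primes451 {N M₀ ℓ p : ℕ} (hp : p.Prime)
    (hprimes : ∀ q : ℕ, q.Prime → q ∣ M₀ → q ∣ N) (h : ¬ p ∣ N * ℓ) : ¬ p ∣ M₀ * ℓ := by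
  intro hd
  rcases (Nat.Prime.dvd_mul hp).mp hd with h1 | h1
  · exact h (Dvd.dvd.mul_right (hprimes p hp h1) ℓ)
  · exact h (Dvd.dvd.mul_left h1 N)

/-- **(E)** `Res.Eigenclass1Statement`, from the landed cohomology side. -/
theorem eigenclass1 : Eigenclass1Statement := by
  intro N _ ε f hf
  obtain ⟨M₀, hM₀, hNM, hprimes, hcoh⟩ := cohStatement N ε f hf
  refine ⟨2, ?_⟩
  intro ℓ hℓ hBℓ F _ _ _ ψ
  haveI : Fact ℓ.Prime := ⟨hℓ⟩
  have hℓ2 : ℓ ≠ 2 := by omega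
  haveI hM : NeZero (M₀ * ℓ) := ⟨Nat.mul_ne_zero (NeZero.ne M₀) hℓ.ne_zero⟩
  obtain ⟨cl, hcl⟩ := hcoh ℓ hℓ2 F ψ
  classical
  -- the eigenvalues, by choice
  let a : ℕ → Zbar := fun p =>
    if h : p.Prime ∧ ¬ p ∣ M₀ * ℓ then
      haveI : Fact p.Prime := ⟨h.1⟩
      (hcl.hecke p h.2).choose
    else 0
  let e : ℕ → Zbar := fun p =>
    if h : p.Prime ∧ ¬ p ∣ M₀ * ℓ then
      haveI : Fact p.Prime := ⟨h.1⟩
      (hcl.diamond p h.2 (sigmaP (M₀ * ℓ) p h.2) (sigmaP_mem h.2) (sigmaP_lower h.2)).choose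
    else 0
  have ha : ∀ (p : ℕ) [hp : Fact p.Prime] (hpM : ¬ p ∣ M₀ * ℓ),
      ((a p : Zbar) : ℂ) = ModularFormClass.qCoeff f p ∧
        ∀ γ : Additive (Gamma1 (M₀ * ℓ)), heckeHom1 p hpM F cl γ = ψ (a p) * cl γ := by
    intro p hp hpM
    have h : p.Prime ∧ ¬ p ∣ M₀ * ℓ := ⟨hp.out, hpM⟩
    have hap : a p = (hcl.hecke p hpM).choose := dif_pos h
    rw [hap]
    exact (hcl.hecke p hpM).choose_spec
  have he : ∀ (p : ℕ) [hp : Fact p.Prime] (hpM : ¬ p ∣ M₀ * ℓ),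
      ((e p : Zbar) : ℂ) = ε (p : ZMod N) ∧
        ∀ γ : Additive (Gamma1 (M₀ * ℓ)),
          (p : F) * diaHom1 (sigmaP (M₀ * ℓ) p hpM) (sigmaP_mem hpM) F cl γ = ψ (e p) * cl γ := by
    intro p hp hpM
    have h : p.Prime ∧ ¬ p ∣ M₀ * ℓ := ⟨hp.out, hpM⟩
    have hep : e p = (hcl.diamond p hpM (sigmaP (M₀ * ℓ) p hpM) (sigmaP_mem hpM)
        (sigmaP_lower hpM)).choose := dif_pos h
    rw [hep]
    exact (hcl.diamond p hpM (sigmaP (M₀ * ℓ) p hpM) (sigmaP_mem hpM)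
        (sigmaP_lower hpM)).choose_spec
  refine ⟨M₀ * ℓ, hM, a, e, ?_, ?_, cl, hcl.ne_zero, ⟨hcl.parabolic, hcl.finOrder⟩, ?_⟩
  · intro p hp hd
    rcases (Nat.Prime.dvd_mul hp).mp hd with h1 | h1
    · exact Dvd.dvd.mul_right (hprimes p hp h1) ℓ
    · exact Dvd.dvd.mul_left h1 N
  · intro p hp hpN
    haveI : Fact p.Prime := ⟨hp⟩
    have hpM := not_dvd_mul_of_primes451 hp hprimes hpN
    exact ⟨(ha p hpM).1, (he p hpM).1⟩
  · intro p hp hpM _ γ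
    exact ⟨(ha p hpM).2 γ, (he p hpM).2 γ⟩

end Fermat.Agent.S48.H451
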